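import Mathlib
import Fermat.Agent.S56.H314.AvlSpec

/-!
# S56 / W-BASE / AVL : `PermIsoStatement`  (helper674)

Finite `G`-sets with equal marks have isogenous permutation lattices.

* `exists_equiv_of_character_eq` : over `ℚ`, two finite-dimensional representations of a finite
  group with the same character are equivalent (induction on the dimension: a nonzero intertwining
  map exists by the character formula for `dim Hom_G`, split off kernel and range by Maschke).
* `character_permQ` : the character of the permutation representation on `X → ℚ` is `marks X`.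
* `permIso : PermIsoStatement` : clear denominators.
-/

set_option autoImplicit false

noncomputable section

namespace Fermat.Agent.S56.H674

open Representation Module

section CharIso

variable {G : Type} [Group G]

/-- character of a product representation -/
lemma character_prod {V W : Type} [AddCommGroup V] [Module ℚ V] [FiniteDimensional ℚ V]
    [AddCommGroup W] [Module ℚ W] [FiniteDimensional ℚ W]
    (ρ : Representation ℚ G V) (σ : Representation ℚ G W) (g : G) :
    (ρ.prod σ).character g = ρ.character g + σ.character g := by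
  simp only [character]
  exact LinearMap.trace_prodMap' _ _

/-- two complementary subrepresentations decompose the representation as a product -/
def equivProdOfIsCompl {V : Type} [AddCommGroup V] [Module ℚ V]
    (ρ : Representation ℚ G V) (K K' : Subrepresentation ρ)
    (h : IsCompl K.toSubmodule K'.toSubmodule) :
    Representation.Equiv (K.toRepresentation.prod K'.toRepresentation) ρ :=
  Representation.Equiv.mk (Submodule.prodEquivOfIsCompl K.toSubmodule K'.toSubmodule h) (by
    intro g
    ext ⟨v, hv⟩ <;> simp [Subrepresentation.toRepresentation])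

/-- pointwise form of the intertwining property -/
lemma itw_apply {V W : Type} [AddCommGroup V] [Module ℚ V]
    [AddCommGroup W] [Module ℚ W] {ρ : Representation ℚ G V} {σ : Representation ℚ G W}
    (f : IntertwiningMap ρ σ) (g : G) (v : V) :
    f.toLinearMap (ρ g v) = σ g (f.toLinearMap v) :=
  LinearMap.congr_fun (f.isIntertwining' g) v

/-- Maschke: a subrepresentation has a complement (as submodules). -/
lemma exists_isCompl_subrep [Finite G] {V : Type} [AddCommGroup V] [Module ℚ V]
    (ρ : Representation ℚ G V) (K : Subrepresentation ρ) :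
    ∃ K' : Subrepresentation ρ, IsCompl K.toSubmodule K'.toSubmodule := by
  have : NeZero (Nat.card G : ℚ) := ⟨by exact_mod_cast (Nat.card_pos (α := G)).ne'⟩
  obtain ⟨K', hK'⟩ := exists_isCompl K
  refine ⟨K', ⟨?_, ?_⟩⟩
  · rw [disjoint_iff]
    exact congrArg Subrepresentation.toSubmodule hK'.inf_eq_bot
  · rw [codisjoint_iff]
    exact congrArg Subrepresentation.toSubmodule hK'.sup_eq_top

/-- product of two equivalences of representations -/
def equivProdCongr {V₁ V₂ W₁ W₂ : Type} [AddCommGroup V₁] [Module ℚ V₁] [AddCommGroup V₂]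
    [Module ℚ V₂] [AddCommGroup W₁] [Module ℚ W₁] [AddCommGroup W₂] [Module ℚ W₂]
    {ρ₁ : Representation ℚ G V₁} {ρ₂ : Representation ℚ G V₂}
    {σ₁ : Representation ℚ G W₁} {σ₂ : Representation ℚ G W₂}
    (e₁ : Representation.Equiv ρ₁ σ₁) (e₂ : Representation.Equiv ρ₂ σ₂) :
    Representation.Equiv (ρ₁.prod ρ₂) (σ₁.prod σ₂) :=
  Representation.Equiv.mk (LinearEquiv.prodCongr e₁.toLinearEquiv e₂.toLinearEquiv) (by
    intro g
    ext v
    · simpa using itw_apply e₁.toIntertwiningMap g v
    · simp
    · simp
    · simpa using itw_apply e₂.toIntertwiningMap g v)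

/-- an intertwining map induces an equivalence from a complement of its kernel onto its range -/
lemma exists_equiv_compl_ker_range {V W : Type} [AddCommGroup V] [Module ℚ V]
    [AddCommGroup W] [Module ℚ W] {ρ : Representation ℚ G V} {σ : Representation ℚ G W}
    (f : IntertwiningMap ρ σ) (K' : Subrepresentation ρ)
    (h : IsCompl f.ker.toSubmodule K'.toSubmodule) :
    Nonempty (Representation.Equiv K'.toRepresentation f.range.toRepresentation) := by
  let φ : K'.toSubmodule →ₗ[ℚ] f.range.toSubmodule :=
    (f.toLinearMap.comp K'.toSubmodule.subtype).codRestrict f.range.toSubmodule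
      (fun v => ⟨v, rfl⟩)
  have hφ : ∀ v : K'.toSubmodule, (φ v : W) = f.toLinearMap (v : V) := fun v => rfl
  let F : IntertwiningMap K'.toRepresentation f.range.toRepresentation :=
    { toLinearMap := φ
      isIntertwining' := by
        intro g
        ext v
        simp only [LinearMap.coe_comp, Function.comp_apply, hφ]
        exact itw_apply f g v }
  have hinj : Function.Injective φ := by
    rw [← LinearMap.ker_eq_bot, LinearMap.ker_eq_bot']
    intro v hv
    have h1 : f.toLinearMap (v : V) = 0 := by
      rw [← hφ v, hv]; rfl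
    have h2 : (v : V) ∈ f.ker.toSubmodule ⊓ K'.toSubmodule := ⟨h1, v.2⟩
    rw [h.inf_eq_bot] at h2
    exact Subtype.ext ((Submodule.mem_bot ℚ).mp h2)
  have hsurj : Function.Surjective φ := by
    rintro ⟨w, v, rfl⟩
    have hv : v ∈ f.ker.toSubmodule ⊔ K'.toSubmodule := by rw [h.sup_eq_top]; trivial
    obtain ⟨a, ha, b, hb, rfl⟩ := Submodule.mem_sup.mp hv
    refine ⟨⟨b, hb⟩, Subtype.ext ?_⟩
    rw [hφ]
    have ha' : f.toLinearMap a = 0 := ha
    show f.toLinearMap b = f.toLinearMap (a + b)
    rw [map_add, ha', zero_add]
  exact ⟨F.ofBijective ⟨hinj, hsurj⟩⟩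

/-- **Equal characters imply equivalence** (finite group, coefficients `ℚ`). -/
theorem exists_equiv_of_character_eq [Fintype G] :
    ∀ (n : ℕ) (V W : Type) [AddCommGroup V] [Module ℚ V] [FiniteDimensional ℚ V]
      [AddCommGroup W] [Module ℚ W] [FiniteDimensional ℚ W]
      (ρ : Representation ℚ G V) (σ : Representation ℚ G W),
      finrank ℚ V = n → (∀ g, ρ.character g = σ.character g) →
      Nonempty (Representation.Equiv ρ σ) := by
  intro n
  induction n using Nat.strong_induction_on with
  | _ n ih =>
    intro V W _ _ _ _ _ _ ρ σ hn hχ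
    have : Invertible (Nat.card G : ℚ) :=
      invertibleOfNonzero (by exact_mod_cast (Nat.card_pos (α := G)).ne')
    have hdim : finrank ℚ V = finrank ℚ W := by
      have := hχ 1
      rw [char_one, char_one] at this
      exact_mod_cast this
    rcases Nat.eq_zero_or_pos n with h0 | hpos
    · subst h0
      have hV : Subsingleton V := Module.finrank_zero_iff.mp hn
      have hW : Subsingleton W := Module.finrank_zero_iff.mp (hdim ▸ hn)
      refine ⟨Representation.Equiv.mk
        { toFun := fun _ => 0
          invFun := fun _ => 0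
          map_add' := fun _ _ => Subsingleton.elim _ _
          map_smul' := fun _ _ => Subsingleton.elim _ _
          left_inv := fun _ => Subsingleton.elim _ _
          right_inv := fun _ => Subsingleton.elim _ _ } ?_⟩
      intro g
      ext v
      exact Subsingleton.elim _ _
    · -- a nonzero intertwining map `ρ → σ`
      have key : finrank ℚ (IntertwiningMap ρ σ) = finrank ℚ (IntertwiningMap ρ ρ) := by
        have h1 := card_inv_mul_sum_char_mul_char_eq_finrank ρ σ
        have h2 := card_inv_mul_sum_char_mul_char_eq_finrank ρ ρ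
        have : (finrank ℚ (IntertwiningMap ρ σ) : ℚ) = finrank ℚ (IntertwiningMap ρ ρ) := by
          rw [← h1, ← h2]
          simp_rw [hχ]
        exact_mod_cast this
      have hVnt : Nontrivial V := Module.finrank_pos_iff.mp (hn ▸ hpos)
      have hid : (IntertwiningMap.id ρ) ≠ 0 := by
        intro h
        obtain ⟨v, hv⟩ := exists_ne (0 : V)
        apply hv
        have := congrArg (fun F : IntertwiningMap ρ ρ => F.toLinearMap v) h
        simpa using this
      have hpos' : 0 < finrank ℚ (IntertwiningMap ρ σ) := by
        rw [key]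
        exact Module.finrank_pos_iff_exists_ne_zero.mpr ⟨_, hid⟩
      obtain ⟨f, hf⟩ := Module.finrank_pos_iff_exists_ne_zero.mp hpos'
      obtain ⟨K', hK'⟩ := exists_isCompl_subrep ρ f.ker
      obtain ⟨I', hI'⟩ := exists_isCompl_subrep σ f.range
      obtain ⟨e₂⟩ := exists_equiv_compl_ker_range f K' hK'
      -- characters
      have c1 : ∀ g, ρ.character g
          = f.ker.toRepresentation.character g + K'.toRepresentation.character g := by
        intro g
        rw [← char_iso (equivProdOfIsCompl ρ f.ker K' hK'), character_prod]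
      have c2 : ∀ g, σ.character g
          = f.range.toRepresentation.character g + I'.toRepresentation.character g := by
        intro g
        rw [← char_iso (equivProdOfIsCompl σ f.range I' hI'), character_prod]
      have c3 : ∀ g, f.ker.toRepresentation.character g = I'.toRepresentation.character g := by
        intro g
        have h1 := c1 g
        have h2 := c2 g
        rw [hχ g, h2, char_iso e₂] at h1
        linarith
      -- the kernel is a proper subspace
      have hlt : finrank ℚ f.ker.toSubmodule < n := by
        rw [← hn]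
        apply Submodule.finrank_lt
        intro htop
        apply hf
        apply IntertwiningMap.ext
        ext v
        have : v ∈ f.ker.toSubmodule := by rw [htop]; trivial
        exact this
      obtain ⟨e₁⟩ := ih _ hlt f.ker.toSubmodule I'.toSubmodule f.ker.toRepresentation
        I'.toRepresentation rfl c3
      exact ⟨((equivProdOfIsCompl ρ f.ker K' hK').symm.trans (equivProdCongr e₁ e₂)).trans
        (equivProdOfIsCompl σ I' f.range hI'.symm)⟩

end CharIso

section Perm

open Fermat.Agent.S56.H314

variable {G : Type} [Group G]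

/-- the permutation representation `ℚ[X]`, as functions: `(g • f) x = f (g⁻¹ • x)` -/
def permQ (X : Type) [MulAction G X] : Representation ℚ G (X → ℚ) where
  toFun g :=
    { toFun := fun f x => f (g⁻¹ • x)
      map_add' := fun _ _ => rfl
      map_smul' := fun _ _ => rfl }
  map_one' := by
    ext f x
    simp
  map_mul' g h := by
    ext f x
    simp [mul_smul]

@[simp] lemma permQ_apply (X : Type) [MulAction G X] (g : G) (f : X → ℚ) (x : X) :
    permQ X g f x = f (g⁻¹ • x) := rfl

/-- the character of the permutation representation is the number of fixed points -/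
lemma character_permQ (X : Type) [Fintype X] [DecidableEq X] [MulAction G X] (g : G) :
    (permQ (G := G) X).character g = (marks X g : ℚ) := by
  unfold character
  rw [LinearMap.trace_eq_matrix_trace ℚ (Pi.basisFun ℚ X), Matrix.trace]
  simp only [Matrix.diag_apply, LinearMap.toMatrix_apply, Pi.basisFun_apply, Pi.basisFun_repr,
    permQ_apply, Pi.single_apply]
  rw [Finset.sum_boole]
  unfold marks
  rw [Nat.card_eq_fintype_card, Fintype.card_subtype]
  congr 2
  ext x
  simp only [Finset.mem_filter, Finset.mem_univ, true_and]
  rw [inv_smul_eq_iff, eq_comm]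

/-- clearing the denominators of a finite family of rational numbers -/
lemma exists_clear_denominators {ι : Type} [Fintype ι] (q : ι → ℚ) :
    ∃ m : ℕ, 0 < m ∧ ∀ i, ∃ n : ℤ, (n : ℚ) = m * q i := by
  classical
  refine ⟨∏ i, (q i).den, Finset.prod_pos (fun i _ => (q i).den_pos), fun i => ?_⟩
  refine ⟨(∏ j ∈ Finset.univ.erase i, ((q j).den : ℤ)) * (q i).num, ?_⟩
  rw [← Finset.mul_prod_erase Finset.univ (fun j => (q j).den) (Finset.mem_univ i)]
  push_cast
  have := Rat.den_mul_eq_num (q i)
  calc (∏ j ∈ Finset.univ.erase i, ((q j).den : ℚ)) * ((q i).num : ℚ)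
      = (∏ j ∈ Finset.univ.erase i, ((q j).den : ℚ)) * (((q i).den : ℚ) * q i) := by rw [this]
    _ = ((q i).den : ℚ) * (∏ j ∈ Finset.univ.erase i, ((q j).den : ℚ)) * q i := by ring

/-- the coefficientwise cast `ℤ^X → ℚ^X` -/
def castQ (X : Type) (v : X → ℤ) : X → ℚ := fun x => (v x : ℚ)

lemma castQ_injective (X : Type) : Function.Injective (castQ X) := by
  intro v w h
  funext x
  have : ((v x : ℤ) : ℚ) = (w x : ℚ) := congrFun h x
  exact_mod_cast this

lemma castQ_permZ (X : Type) [MulAction G X] (g : G) (v : X → ℤ) :
    castQ X (permZ X g v) = permQ X g (castQ X v) := rfl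

lemma castQ_nsmul (X : Type) (M : ℕ) (v : X → ℤ) :
    castQ X (M • v) = (M : ℚ) • castQ X v := by
  funext x
  simp [castQ]

/-- an integral model of `m • φ` -/
lemma exists_int_model (X Y : Type) [Fintype X] [DecidableEq X]
    (φ : (X → ℚ) →ₗ[ℚ] (Y → ℚ)) (m : ℕ) (A : Y → X → ℤ)
    (hA : ∀ y x, (A y x : ℚ) = m * φ (fun j => if x = j then 1 else 0) y) :
    ∃ F : (X → ℤ) →ₗ[ℤ] (Y → ℤ), ∀ v, castQ Y (F v) = (m : ℚ) • φ (castQ X v) := by
  refine ⟨Matrix.mulVecLin (Matrix.of A), fun v => ?_⟩
  funext y
  have h1 := LinearMap.pi_apply_eq_sum_univ φ (castQ X v)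
  simp only [castQ, Matrix.mulVecLin_apply, Matrix.mulVec, dotProduct, Matrix.of_apply,
    Pi.smul_apply, smul_eq_mul]
  rw [h1]
  push_cast
  simp only [Finset.sum_apply, Pi.smul_apply, smul_eq_mul, Finset.mul_sum, hA, castQ]
  refine Finset.sum_congr rfl (fun x _ => ?_)
  ring

/-- **Permutation lattices with equal marks are isogenous.** -/
theorem permIso : PermIsoStatement := by
  intro G _ _ X Y _ _ _ _ hmarks
  classical
  cases nonempty_fintype G
  cases nonempty_fintype X
  cases nonempty_fintype Y
  obtain ⟨e⟩ := exists_equiv_of_character_eq (G := G) _ (X → ℚ) (Y → ℚ)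
    (permQ (G := G) X) (permQ (G := G) Y) rfl
    (fun g => by rw [character_permQ (G := G), character_permQ (G := G), hmarks g])
  obtain ⟨φ, ψ, hφψ, hψφ, hφg, hψg⟩ : ∃ (φ : (X → ℚ) →ₗ[ℚ] (Y → ℚ)) (ψ : (Y → ℚ) →ₗ[ℚ] (X → ℚ)),
      (∀ w, φ (ψ w) = w) ∧ (∀ v, ψ (φ v) = v) ∧
      (∀ (g : G) (v : X → ℚ), φ (permQ X g v) = permQ Y g (φ v)) ∧
      (∀ (g : G) (w : Y → ℚ), ψ (permQ Y g w) = permQ X g (ψ w)) := by
    have he : ∀ (g : G) (v : X → ℚ),
        e.toLinearEquiv (permQ X g v) = permQ Y g (e.toLinearEquiv v) :=
      fun g v => itw_apply e.toIntertwiningMap g v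
    refine ⟨e.toLinearEquiv.toLinearMap, e.toLinearEquiv.symm.toLinearMap,
      fun w => e.toLinearEquiv.apply_symm_apply w, fun v => e.toLinearEquiv.symm_apply_apply v,
      he, fun g w => ?_⟩
    apply e.toLinearEquiv.injective
    show e.toLinearEquiv (e.toLinearEquiv.symm (permQ Y g w))
      = e.toLinearEquiv (permQ X g (e.toLinearEquiv.symm w))
    rw [he, LinearEquiv.apply_symm_apply, LinearEquiv.apply_symm_apply]
  -- clear denominators of all matrix entries of `φ` and `ψ`
  let q : (Y × X) ⊕ (X × Y) → ℚ := Sum.elim
    (fun yx => φ (fun j => if yx.2 = j then 1 else 0) yx.1)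
    (fun xy => ψ (fun j => if xy.2 = j then 1 else 0) xy.1)
  obtain ⟨m, hm, hq⟩ := exists_clear_denominators q
  choose N hN using hq
  obtain ⟨F, hF⟩ := exists_int_model X Y φ m
    (fun y x => N (Sum.inl (y, x))) (fun y x => hN (Sum.inl (y, x)))
  obtain ⟨F', hF'⟩ := exists_int_model Y X ψ m
    (fun x y => N (Sum.inr (x, y))) (fun x y => hN (Sum.inr (x, y)))
  refine ⟨F, F', m * m, Nat.mul_pos hm hm, ?_, ?_, ?_, ?_⟩
  · intro g v
    apply castQ_injective
    rw [hF, castQ_permZ, castQ_permZ, hF, hφg, map_smul]
  · intro g v
    apply castQ_injective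
    rw [hF', castQ_permZ, castQ_permZ, hF', hψg, map_smul]
  · intro v
    apply castQ_injective
    rw [hF, hF', castQ_nsmul, map_smul, hφψ, smul_smul]
    push_cast
    rfl
  · intro v
    apply castQ_injective
    rw [hF', hF, castQ_nsmul, map_smul, hψφ, smul_smul]
    push_cast
    rfl

end Perm

end Fermat.Agent.S56.H674

end
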